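import Mathlib

/-!
# P-CFT / GO2-UNR (row 933), pure group algebra

A `2`-cocycle (trivial action) on a group `G`, right-invariant under a subgroup `N`, is a
coboundary on a subgroup `D` as soon as `D` has a cyclic quotient `e : D → C`, generated by the
image of `φ ∈ D`, with `ker e ≤ N`, `φ ^ f ∈ N` and the order of `e φ` divisible by `p * f`,
the values being killed by `p`.  (Inflation from `ℤ/f` to `ℤ/(p f)` kills `H²(ℤ/f, ℤ/p)`.)
Mathlib only.
-/

set_option autoImplicit false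

namespace Fermat.Agent.H3.Cft

section Nat

variable {A : Type*} [AddCommGroup A]

/-- The `1`-cochain on `ℕ` integrating a `2`-cocycle `X` on `ℕ`. -/
def cycInt (X : ℕ → ℕ → A) : ℕ → A
  | 0 => X 0 0
  | (a + 1) => cycInt X a - X a 1

@[simp] lemma cycInt_zero (X : ℕ → ℕ → A) : cycInt X 0 = X 0 0 := rfl

lemma cycInt_succ (X : ℕ → ℕ → A) (a : ℕ) : cycInt X (a + 1) = cycInt X a - X a 1 := rfl

/-- Every `2`-cocycle on `ℕ` is the coboundary of its integral. -/
lemma cycInt_spec (X : ℕ → ℕ → A)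
    (hX : ∀ a b c : ℕ, X b c - X (a + b) c + X a (b + c) - X a b = 0) (a b : ℕ) :
    X a b = cycInt X b - cycInt X (a + b) + cycInt X a := by
  induction b with
  | zero =>
    have h := hX a 0 0
    simp only [add_zero] at h
    have h' : X a 0 = X 0 0 := by
      have : X 0 0 - X a 0 = 0 := by
        have e : X 0 0 - X a 0 + X a 0 - X a 0 = X 0 0 - X a 0 := by abel
        rw [← e]; exact h
      exact (sub_eq_zero.1 this).symm
    rw [h', add_zero, cycInt_zero]; abel
  | succ b ih =>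
    have h := hX a b 1
    have h1 : X a (b + 1) = X a b + X (a + b) 1 - X b 1 := by
      have e : X a (b + 1) - (X a b + X (a + b) 1 - X b 1)
          = X b 1 - X (a + b) 1 + X a (b + 1) - X a b := by abel
      exact sub_eq_zero.1 (e.trans h)
    rw [h1, ih, ← add_assoc a b 1, cycInt_succ, cycInt_succ]
    abel

/-- If the cocycle is `f`-periodic in the first variable, the integral is `f`-periodic up to a
constant. -/
lemma cycInt_add_period (X : ℕ → ℕ → A)
    (hX : ∀ a b c : ℕ, X b c - X (a + b) c + X a (b + c) - X a b = 0) (f : ℕ)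
    (hper : ∀ a b : ℕ, X (a + f) b = X a b) (a : ℕ) :
    cycInt X (a + f) = cycInt X a + (cycInt X f - cycInt X 0) := by
  have h1 := cycInt_spec X hX f a
  have h2 := cycInt_spec X hX 0 a
  have h3 : X f a = X 0 a := by simpa using hper 0 a
  rw [h1, h2, zero_add] at h3
  rw [add_comm a f]
  have e : cycInt X (f + a) - (cycInt X a + (cycInt X f - cycInt X 0))
      = (cycInt X a - cycInt X a + cycInt X 0) - (cycInt X a - cycInt X (f + a) + cycInt X f)
        := by abel
  rw [← sub_eq_zero, e, h3, sub_self]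

lemma cycInt_add_mul_period (X : ℕ → ℕ → A)
    (hX : ∀ a b c : ℕ, X b c - X (a + b) c + X a (b + c) - X a b = 0) (f : ℕ)
    (hper : ∀ a b : ℕ, X (a + f) b = X a b) (a k : ℕ) :
    cycInt X (a + k * f) = cycInt X a + k • (cycInt X f - cycInt X 0) := by
  induction k with
  | zero => simp
  | succ k ih =>
    rw [Nat.succ_mul, ← add_assoc, cycInt_add_period X hX f hper, ih, succ_nsmul]
    abel

/-- If the values are killed by `p`, the integral is `p * f`-periodic. -/
lemma cycInt_congr (X : ℕ → ℕ → A)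
    (hX : ∀ a b c : ℕ, X b c - X (a + b) c + X a (b + c) - X a b = 0) (f p : ℕ)
    (hp : ∀ a : A, p • a = 0)
    (hper : ∀ a b : ℕ, X (a + f) b = X a b) {a b : ℕ} (hab : a ≤ b) (h : p * f ∣ b - a) :
    cycInt X a = cycInt X b := by
  obtain ⟨k, hk⟩ := h
  have hb : b = a + (p * k) * f := by
    have : b = a + (b - a) := by omega
    rw [this, hk]; ring
  rw [hb, cycInt_add_mul_period X hX f hper, mul_nsmul, hp, smul_zero, add_zero]

end Nat

section Main

variable {G C : Type*} [Group G] [Group C]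

/-- **Cyclic inflation kills `H²`**, general coefficients killed by `p`. -/
theorem locTriv_of_cyclic_gen {A : Type*} [AddCommGroup A] (p : ℕ) (hp : ∀ a : A, p • a = 0)
    (x : G × G → A)
    (hx : ∀ g h k : G, x (h, k) - x (g * h, k) + x (g, h * k) - x (g, h) = 0)
    (D N : Subgroup G)
    (hinv : ∀ g h n m : G, g ∈ D → h ∈ D → n ∈ N → m ∈ N → x (g * n, h * m) = x (g, h))
    (e : D →* C) (φ : D) (f : ℕ)
    (hφf : (φ : G) ^ f ∈ N)
    (hgen : ∀ g : D, ∃ k : ℕ, e g = e φ ^ k)
    (hord : ∀ k : ℕ, e φ ^ k = 1 → p * f ∣ k)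
    (hker : ∀ g : D, e g = 1 → (g : G) ∈ N) :
    ∃ y : G → A, (∀ g n : D, e n = 1 → y ((g : G) * n) = y g) ∧
      ∀ g h : G, g ∈ D → h ∈ D → x (g, h) = y h - y (g * h) + y g := by
  classical
  -- the cocycle on `ℕ`
  set X : ℕ → ℕ → A := fun a b => x ((φ : G) ^ a, (φ : G) ^ b) with hXdef
  have hφD : ∀ a : ℕ, (φ : G) ^ a ∈ D := fun a => D.pow_mem φ.2 a
  have hX : ∀ a b c : ℕ, X b c - X (a + b) c + X a (b + c) - X a b = 0 := by
    intro a b c
    have := hx ((φ : G) ^ a) ((φ : G) ^ b) ((φ : G) ^ c)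
    simpa only [hXdef, pow_add] using this
  have hper : ∀ a b : ℕ, X (a + f) b = X a b := by
    intro a b
    have := hinv ((φ : G) ^ a) ((φ : G) ^ b) ((φ : G) ^ f) 1 (hφD a) (hφD b) hφf N.one_mem
    simpa only [hXdef, pow_add, mul_one] using this
  set t : ℕ → A := cycInt X with htdef
  -- exponents
  choose kk hkk using hgen
  have hcongr : ∀ a b : ℕ, e φ ^ a = e φ ^ b → t a = t b := by
    have key : ∀ a b : ℕ, a ≤ b → e φ ^ a = e φ ^ b → t a = t b := by
      intro a b hab h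
      have h1 : e φ ^ (b - a) = 1 := by
        have : e φ ^ b = e φ ^ a * e φ ^ (b - a) := by
          rw [← pow_add]; congr 1; omega
        rw [← h] at this
        exact (mul_eq_left.1 this.symm)
      exact cycInt_congr X hX f p hp hper hab (hord _ h1)
    intro a b h
    rcases le_total a b with hab | hab
    · exact key a b hab h
    · exact (key b a hab h.symm).symm
  refine ⟨fun g => if hg : g ∈ D then t (kk ⟨g, hg⟩) else 0, ?_, ?_⟩
  · intro g n hn
    have hgn : (g : G) * n ∈ D := D.mul_mem g.2 n.2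
    simp only [dif_pos hgn, dif_pos g.2]
    apply hcongr
    rw [← hkk, ← hkk]
    have : (⟨(g : G) * n, hgn⟩ : D) = g * n := rfl
    rw [this, map_mul, hn, mul_one]
  · intro g h hg hh
    have hgh : g * h ∈ D := D.mul_mem hg hh
    simp only [dif_pos hg, dif_pos hh, dif_pos hgh]
    set a := kk ⟨g, hg⟩ with ha
    set b := kk ⟨h, hh⟩ with hb
    -- `g = φ ^ a * n`, `h = φ ^ b * m` with `n, m ∈ N`
    have hn : ((φ : G) ^ a)⁻¹ * g ∈ N := by
      have : ((φ ^ a)⁻¹ * ⟨g, hg⟩ : D) = ⟨((φ : G) ^ a)⁻¹ * g, D.mul_mem (D.inv_mem (hφD a)) hg⟩ :=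
        rfl
      have h1 : e ((φ ^ a)⁻¹ * ⟨g, hg⟩) = 1 := by
        rw [map_mul, map_inv, map_pow, hkk ⟨g, hg⟩]
        exact inv_mul_cancel _
      exact hker _ h1
    have hm : ((φ : G) ^ b)⁻¹ * h ∈ N := by
      have h1 : e ((φ ^ b)⁻¹ * ⟨h, hh⟩) = 1 := by
        rw [map_mul, map_inv, map_pow, hkk ⟨h, hh⟩]
        exact inv_mul_cancel _
      exact hker _ h1
    have h2 := hinv ((φ : G) ^ a) ((φ : G) ^ b) _ _ (hφD a) (hφD b) hn hm
    rw [mul_inv_cancel_left, mul_inv_cancel_left] at h2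
    rw [h2]
    have h3 : t (kk ⟨g * h, hgh⟩) = t (a + b) := by
      apply hcongr
      rw [← hkk, pow_add, ← hkk ⟨g, hg⟩, ← hkk ⟨h, hh⟩, ← map_mul]
      rfl
    rw [h3]
    exact cycInt_spec X hX a b

/-- **Cyclic inflation kills `H²(·, ℤ/p)`**: the shape used for `UnramLocTrivStatement`. -/
theorem locTriv_of_cyclic {p : ℕ} (x : G × G → ZMod p)
    (hx : ∀ g h k : G, x (h, k) - x (g * h, k) + x (g, h * k) - x (g, h) = 0)
    (D N : Subgroup G)
    (hinv : ∀ g h n m : G, g ∈ D → h ∈ D → n ∈ N → m ∈ N → x (g * n, h * m) = x (g, h))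
    (e : D →* C) (φ : D) (f : ℕ)
    (hφf : (φ : G) ^ f ∈ N)
    (hgen : ∀ g : D, ∃ k : ℕ, e g = e φ ^ k)
    (hord : ∀ k : ℕ, e φ ^ k = 1 → p * f ∣ k)
    (hker : ∀ g : D, e g = 1 → (g : G) ∈ N) :
    ∃ y : G → ZMod p, (∀ g n : D, e n = 1 → y ((g : G) * n) = y g) ∧
      ∀ g h : G, g ∈ D → h ∈ D → x (g, h) = y h - y (g * h) + y g :=
  locTriv_of_cyclic_gen p (fun a => by rw [nsmul_eq_mul, ZMod.natCast_self, zero_mul])
    x hx D N hinv e φ f hφf hgen hord hker

end Main

end Fermat.Agent.H3.Cft
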