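import Fermat.Agent.H3.Cft.CyclicInfl

/-!
# P-CFT / GO2-UNR (row 933), pure group algebra, second form

The bridging form of `locTriv_of_cyclic` asked for by helper49 (rows 928/933): the quotient
`e : D → C` has image inside a finite cyclic group `zpowers γ`, and there is `u ∈ D ∩ N` with
`p ∣ orderOf (e u)`.  Mathlib only.
-/

set_option autoImplicit false

namespace Fermat.Agent.H3.Cft

variable {G C : Type*} [Group G] [Group C]

/-- The range of a homomorphism into a cyclic subgroup `zpowers γ` is generated by the image of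
a single element. -/
lemma exists_range_eq_zpowers {D : Type*} [Group D] (e : D →* C) (γ : C)
    (hgen : ∀ g : D, e g ∈ Subgroup.zpowers γ) :
    ∃ φ : D, ∀ g : D, e g ∈ Subgroup.zpowers (e φ) := by
  have hle : e.range ≤ Subgroup.zpowers γ := by
    rintro _ ⟨g, rfl⟩
    exact hgen g
  have : IsCyclic e.range :=
    isCyclic_of_injective (Subgroup.inclusion hle) (Subgroup.inclusion_injective hle)
  obtain ⟨⟨c, φ, rfl⟩, hc⟩ := IsCyclic.exists_generator (α := e.range)
  refine ⟨φ, fun g => ?_⟩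
  have h := hc ⟨e g, g, rfl⟩
  rw [Subgroup.mem_zpowers_iff] at h ⊢
  obtain ⟨k, hk⟩ := h
  refine ⟨k, ?_⟩
  have := congrArg Subtype.val hk
  simpa using this

/-- **Cyclic inflation kills `H²`**, bridging form (general coefficients killed by `p`). -/
theorem locTriv_of_cyclic_gen' {A : Type*} [AddCommGroup A] (p : ℕ) (hp : ∀ a : A, p • a = 0)
    (x : G × G → A)
    (hx : ∀ g h k : G, x (h, k) - x (g * h, k) + x (g, h * k) - x (g, h) = 0)
    (D N : Subgroup G)
    (hinv : ∀ g h n m : G, g ∈ D → h ∈ D → n ∈ N → m ∈ N → x (g * n, h * m) = x (g, h))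
    (e : D →* C) (γ : C) (hγ : IsOfFinOrder γ)
    (hgen : ∀ g : D, e g ∈ Subgroup.zpowers γ)
    (u : D) (hu : (u : G) ∈ N) (hup : p ∣ orderOf (e u))
    (hker : ∀ g : D, e g = 1 → (g : G) ∈ N) :
    ∃ y : G → A, (∀ g n : D, e n = 1 → y ((g : G) * n) = y g) ∧
      ∀ g h : G, g ∈ D → h ∈ D → x (g, h) = y h - y (g * h) + y g := by
  obtain ⟨φ, hφ⟩ := exists_range_eq_zpowers e γ hgen
  -- `e φ` has finite order
  have hfin : IsOfFinOrder (e φ) := by
    obtain ⟨k, hk⟩ := Subgroup.mem_zpowers_iff.1 (hgen φ)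
    rw [← hk]
    exact hγ.zpow
  set n := orderOf (e φ) with hn
  have hnpos : 0 < n := hfin.orderOf_pos
  -- natural exponents
  have hnat : ∀ g : D, ∃ k : ℕ, e g = e φ ^ k := by
    intro g
    have h1 : e g ∈ Submonoid.powers (e φ) := hfin.mem_powers_iff_mem_zpowers.2 (hφ g)
    obtain ⟨k, hk⟩ := h1
    exact ⟨k, hk.symm⟩
  obtain ⟨a, ha⟩ := hnat u
  set f := Nat.gcd n a with hf
  -- `p * f ∣ n`
  have hord_u : orderOf (e u) = n / f := by
    rw [ha, hfin.orderOf_pow]
  have hfn : f ∣ n := Nat.gcd_dvd_left n a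
  have hpf : p * f ∣ n := by
    obtain ⟨c, hc⟩ := hup
    rw [hord_u] at hc
    refine ⟨c, ?_⟩
    have h1 : n = f * (n / f) := (Nat.mul_div_cancel' hfn).symm
    rw [h1, hc]; ring
  -- `φ ^ f ∈ N`
  have hφf : (φ : G) ^ f ∈ N := by
    -- Bezout: `f = n * s + a * t` in `ℤ`
    have hbez : (f : ℤ) = n * Nat.gcdA n a + a * Nat.gcdB n a := Nat.gcd_eq_gcd_ab n a
    set t : ℤ := Nat.gcdB n a with ht
    have h1 : e φ ^ (f : ℤ) = e u ^ t := by
      rw [hbez, zpow_add, zpow_mul, zpow_natCast, hn, pow_orderOf_eq_one, one_zpow, one_mul,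
        zpow_mul, zpow_natCast, ← ha]
    have h2 : e (φ ^ f * (u ^ t)⁻¹) = 1 := by
      rw [map_mul, map_inv, map_zpow, map_pow, ← h1, zpow_natCast]
      exact mul_inv_cancel _
    have h3 := hker _ h2
    have h4 : ((u ^ t : D) : G) ∈ N := by
      rw [Subgroup.coe_zpow]
      exact N.zpow_mem hu t
    have h5 := N.mul_mem h3 h4
    have h6 : ((φ ^ f * (u ^ t)⁻¹ : D) : G) * ((u ^ t : D) : G) = (φ : G) ^ f := by
      rw [← Subgroup.coe_mul, inv_mul_cancel_right, Subgroup.coe_pow]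
    rwa [h6] at h5
  refine locTriv_of_cyclic_gen p hp x hx D N hinv e φ f hφf hnat ?_ hker
  intro k hk
  exact hpf.trans (orderOf_dvd_of_pow_eq_one hk)

/-- **Cyclic inflation kills `H²(·, ℤ/p)`**, bridging form. -/
theorem locTriv_of_cyclic' {p : ℕ} (x : G × G → ZMod p)
    (hx : ∀ g h k : G, x (h, k) - x (g * h, k) + x (g, h * k) - x (g, h) = 0)
    (D N : Subgroup G)
    (hinv : ∀ g h n m : G, g ∈ D → h ∈ D → n ∈ N → m ∈ N → x (g * n, h * m) = x (g, h))
    (e : D →* C) (γ : C) (hγ : IsOfFinOrder γ)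
    (hgen : ∀ g : D, e g ∈ Subgroup.zpowers γ)
    (u : D) (hu : (u : G) ∈ N) (hup : p ∣ orderOf (e u))
    (hker : ∀ g : D, e g = 1 → (g : G) ∈ N) :
    ∃ y : G → ZMod p, (∀ g n : D, e n = 1 → y ((g : G) * n) = y g) ∧
      ∀ g h : G, g ∈ D → h ∈ D → x (g, h) = y h - y (g * h) + y g :=
  locTriv_of_cyclic_gen' p (fun a => by rw [nsmul_eq_mul, ZMod.natCast_self, zero_mul])
    x hx D N hinv e γ hγ hgen u hu hup hker

end Fermat.Agent.H3.Cft
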